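import Mathlib

/-!
# S29 (R3, block E): twisted Eisenstein series on `Γ₀(N)`

`c : Γ₀(N) →* ℂˣ` a character with `c γ = 1` whenever the bottom row of `γ` is `(0, *)`
(i.e. `c` kills `± T^n`) and `‖c γ‖ = 1`.  Then

`E_c(z) = ∑_{γ ∈ Γ_∞ \ Γ₀(N)} c(γ)⁻¹ (c' z + d)^{-k}`   (`(c', d)` the bottom row of `γ`)

is written as a sum over all `v ∈ ℤ²` with the coefficient `chat c v` (`= c(γ)⁻¹` if `v` is the
bottom row of `γ ∈ Γ₀(N)`, `0` otherwise).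

* `chat_vecMul` : `chat c (v ᵥ* γ) = chat c v * (c γ)⁻¹`;
* `Ec_smul` : `E_c (γ • z) = c γ * denom γ z ^ k * E_c z`.
-/

set_option autoImplicit false

noncomputable section

open UpperHalfPlane Matrix CongruenceSubgroup EisensteinSeries
open scoped MatrixGroups

namespace Fermat.Agent.S29.Eis.Chat

variable {N : ℕ} (c : Gamma0 N →* ℂˣ)

/-- the bottom row of a matrix in `SL(2, ℤ)`. -/
def bot (γ : SL(2, ℤ)) : Fin 2 → ℤ := (γ : Matrix (Fin 2) (Fin 2) ℤ) 1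

theorem bot_mul (δ γ : SL(2, ℤ)) : bot (δ * γ) = bot δ ᵥ* (γ : Matrix (Fin 2) (Fin 2) ℤ) := by
  ext j
  simp only [bot, Matrix.SpecialLinearGroup.coe_mul, Matrix.mul_apply, Matrix.vecMul, dotProduct]

/-- the coefficient of `v ∈ ℤ²`: `c(γ)⁻¹` if `v` is the bottom row of `γ ∈ Γ₀(N)`, else `0`. -/
def chat (v : Fin 2 → ℤ) : ℂ := by
  classical
  exact if h : ∃ γ : Gamma0 N, bot (γ : SL(2, ℤ)) = v then ((c h.choose : ℂˣ) : ℂ)⁻¹ else 0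

variable {c}

/-- the hypothesis "`c` kills the elements with bottom row `(0, *)`". -/
def KillsPar (c : Gamma0 N →* ℂˣ) : Prop :=
  ∀ γ : Gamma0 N, (γ : SL(2, ℤ)) 1 0 = 0 → c γ = 1

theorem eq_of_bot_eq (hpar : KillsPar c) {γ γ' : Gamma0 N}
    (h : bot (γ : SL(2, ℤ)) = bot (γ' : SL(2, ℤ))) : c γ = c γ' := by
  have h1 : c (γ' * γ⁻¹) = 1 := by
    apply hpar
    have h0 := congrFun h 0
    have h1 := congrFun h 1
    simp only [bot] at h0 h1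
    show ((γ' : SL(2, ℤ)) * (γ : SL(2, ℤ))⁻¹) 1 0 = 0
    rw [Matrix.SpecialLinearGroup.coe_mul, Matrix.SpecialLinearGroup.coe_inv,
      Matrix.adjugate_fin_two, Matrix.mul_apply, Fin.sum_univ_two]
    simp only [Matrix.of_apply, Matrix.cons_val_zero, Matrix.cons_val_one]
    rw [← h0, ← h1]
    ring
  rw [map_mul, map_inv, mul_inv_eq_one] at h1
  exact h1.symm

theorem chat_bot (hpar : KillsPar c) (γ : Gamma0 N) :
    chat c (bot (γ : SL(2, ℤ))) = ((c γ : ℂˣ) : ℂ)⁻¹ := by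
  classical
  have h : ∃ γ' : Gamma0 N, bot (γ' : SL(2, ℤ)) = bot (γ : SL(2, ℤ)) := ⟨γ, rfl⟩
  rw [chat, dif_pos h, eq_of_bot_eq hpar h.choose_spec]

theorem chat_of_not (v : Fin 2 → ℤ) (h : ¬ ∃ γ : Gamma0 N, bot (γ : SL(2, ℤ)) = v) :
    chat c v = 0 := by
  classical
  rw [chat, dif_neg h]

/-- **the multiplier law for the coefficients.** -/
theorem chat_vecMul (hpar : KillsPar c) (v : Fin 2 → ℤ) (γ : Gamma0 N) :
    chat c (v ᵥ* ((γ : SL(2, ℤ)) : Matrix (Fin 2) (Fin 2) ℤ)) =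
      chat c v * ((c γ : ℂˣ) : ℂ)⁻¹ := by
  by_cases h : ∃ δ : Gamma0 N, bot (δ : SL(2, ℤ)) = v
  · obtain ⟨δ, rfl⟩ := h
    have : bot (δ : SL(2, ℤ)) ᵥ* ((γ : SL(2, ℤ)) : Matrix (Fin 2) (Fin 2) ℤ) =
        bot ((δ * γ : Gamma0 N) : SL(2, ℤ)) := (bot_mul _ _).symm
    rw [this, chat_bot hpar, chat_bot hpar, map_mul, Units.val_mul, mul_inv]
  · rw [chat_of_not v h, zero_mul]
    apply chat_of_not
    rintro ⟨δ, hδ⟩
    apply h
    refine ⟨δ * γ⁻¹, ?_⟩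
    have h1 : bot ((δ * γ⁻¹ : Gamma0 N) : SL(2, ℤ)) =
        bot (δ : SL(2, ℤ)) ᵥ* (((γ⁻¹ : Gamma0 N) : SL(2, ℤ)) : Matrix (Fin 2) (Fin 2) ℤ) :=
      bot_mul _ _
    rw [h1, hδ, Matrix.vecMul_vecMul]
    have h2 : ((γ : SL(2, ℤ)) : Matrix (Fin 2) (Fin 2) ℤ) *
        (((γ⁻¹ : Gamma0 N) : SL(2, ℤ)) : Matrix (Fin 2) (Fin 2) ℤ) = 1 := by
      rw [← Matrix.SpecialLinearGroup.coe_mul, ← Subgroup.coe_mul, mul_inv_cancel]
      rfl
    rw [h2, Matrix.vecMul_one]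

theorem norm_chat_le (hnorm : ∀ γ, ‖((c γ : ℂˣ) : ℂ)‖ = 1) (v : Fin 2 → ℤ) : ‖chat c v‖ ≤ 1 := by
  classical
  rw [chat]
  split_ifs with h
  · rw [norm_inv, hnorm, inv_one]
  · rw [norm_zero]; exact zero_le_one

/-! ### the coefficients of the vectors `(0, n)` -/

theorem neg_one_mem_Gamma0 : (-1 : SL(2, ℤ)) ∈ Gamma0 N := by
  rw [Gamma0_mem]
  simp

theorem chat_zero_one (hpar : KillsPar c) : chat c ![0, 1] = 1 := by
  have h : bot (((1 : Gamma0 N) : Gamma0 N) : SL(2, ℤ)) = ![0, 1] := by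
    ext j
    fin_cases j <;> simp [bot]
  rw [← h, chat_bot hpar, map_one]
  simp

theorem chat_zero_neg_one (hpar : KillsPar c) : chat c ![0, -1] = 1 := by
  have h : bot (((⟨-1, neg_one_mem_Gamma0⟩ : Gamma0 N) : Gamma0 N) : SL(2, ℤ)) = ![0, -1] := by
    ext j
    fin_cases j <;> simp [bot]
  have h1 : c ⟨-1, neg_one_mem_Gamma0⟩ = 1 := by
    apply hpar
    simp
  rw [← h, chat_bot hpar, h1]
  simp

theorem chat_zero_of_ne {n : ℤ} (h1 : n ≠ 1) (h2 : n ≠ -1) : chat c ![0, n] = 0 := by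
  apply chat_of_not
  rintro ⟨γ, hγ⟩
  have h0 := congrFun hγ 0
  have h1' := congrFun hγ 1
  simp only [bot, Matrix.cons_val_zero, Matrix.cons_val_one] at h0 h1'
  have hdet := Matrix.SpecialLinearGroup.det_coe (γ : SL(2, ℤ))
  rw [Matrix.det_fin_two, h0, h1', mul_zero, sub_zero] at hdet
  rcases Int.isUnit_iff.mp (IsUnit.of_mul_eq_one _ (by rw [mul_comm]; exact hdet)) with h | h
  · exact h1 h
  · exact h2 h


variable (c)

/-- **the twisted Eisenstein series** of weight `k`. -/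
def Ec (k : ℤ) (z : ℍ) : ℂ := ∑' v : Fin 2 → ℤ, chat c v * eisSummand k v z

variable {c}

theorem summable_Ec (hnorm : ∀ γ, ‖((c γ : ℂˣ) : ℂ)‖ = 1) {k : ℤ} (hk : 3 ≤ k) (z : ℍ) :
    Summable fun v : Fin 2 → ℤ => chat c v * eisSummand k v z := by
  apply Summable.of_norm_bounded (summable_norm_eisSummand hk z)
  intro v
  rw [norm_mul]
  calc ‖chat c v‖ * ‖eisSummand k v z‖ ≤ 1 * ‖eisSummand k v z‖ :=
        mul_le_mul_of_nonneg_right (norm_chat_le hnorm v) (norm_nonneg _)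
    _ = ‖eisSummand k v z‖ := one_mul _

/-- right multiplication by `γ` as a permutation of `ℤ²`. -/
def vecMulEquiv (γ : SL(2, ℤ)) : (Fin 2 → ℤ) ≃ (Fin 2 → ℤ) where
  toFun v := v ᵥ* (γ : Matrix (Fin 2) (Fin 2) ℤ)
  invFun v := v ᵥ* ((γ⁻¹ : SL(2, ℤ)) : Matrix (Fin 2) (Fin 2) ℤ)
  left_inv v := by
    show (v ᵥ* (γ : Matrix (Fin 2) (Fin 2) ℤ)) ᵥ* ((γ⁻¹ : SL(2, ℤ)) : Matrix (Fin 2) (Fin 2) ℤ) = v
    rw [Matrix.vecMul_vecMul, ← Matrix.SpecialLinearGroup.coe_mul, mul_inv_cancel]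
    simp
  right_inv v := by
    show (v ᵥ* ((γ⁻¹ : SL(2, ℤ)) : Matrix (Fin 2) (Fin 2) ℤ)) ᵥ* (γ : Matrix (Fin 2) (Fin 2) ℤ) = v
    rw [Matrix.vecMul_vecMul, ← Matrix.SpecialLinearGroup.coe_mul, inv_mul_cancel]
    simp

/-- **the transformation law** `E_c (γ z) = c(γ) (c' z + d)^k E_c(z)`. -/
theorem Ec_smul (hpar : KillsPar c) (k : ℤ) (γ : Gamma0 N) (z : ℍ) :
    Ec c k ((γ : SL(2, ℤ)) • z) =
      ((c γ : ℂˣ) : ℂ) * denom ((γ : SL(2, ℤ)) : GL (Fin 2) ℝ) z ^ k * Ec c k z := by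
  unfold Ec
  have h1 : ∀ v : Fin 2 → ℤ, chat c v * eisSummand k v ((γ : SL(2, ℤ)) • z) =
      ((c γ : ℂˣ) : ℂ) * denom ((γ : SL(2, ℤ)) : GL (Fin 2) ℝ) z ^ k *
        (chat c (vecMulEquiv (γ : SL(2, ℤ)) v) * eisSummand k (vecMulEquiv (γ : SL(2, ℤ)) v) z) := by
    intro v
    rw [eisSummand_SL2_apply]
    show _ = _ * (chat c (v ᵥ* ((γ : SL(2, ℤ)) : Matrix (Fin 2) (Fin 2) ℤ)) * _)
    rw [chat_vecMul hpar]
    have hne : ((c γ : ℂˣ) : ℂ) ≠ 0 := Units.ne_zero _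
    field_simp
    rfl
  simp_rw [h1]
  rw [tsum_mul_left]
  congr 1
  exact (vecMulEquiv (γ : SL(2, ℤ))).tsum_eq (fun v => chat c v * eisSummand k v z)

end Fermat.Agent.S29.Eis.Chat
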