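import Mathlib

set_option autoImplicit false

/-!
# Limit at `i∞` of weighted Eisenstein sums (block (E) of project R, leaf (3))

For a weight function `eps : (Fin 2 → ℤ) → ℂ` with `‖eps v‖ ≤ 1` and `3 ≤ k` the weighted
Eisenstein sum `z ↦ ∑' v, eps v * eisSummand k v z` tends, along the imaginary axis, to
`∑' v, if v 0 = 0 then eps v * (v 1) ^ (-k) else 0`.  If `eps` is supported on coprime pairs this
limit is `eps ![0, 1] + (-1) ^ k * eps ![0, -1]`.

Everything is stated for the bare `tsum` (which is the unfolding of `Eis.Weighted.wEis`), so this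
file only depends on Mathlib.
-/

namespace Fermat.Agent.S29.Eis.Limit

open EisensteinSeries UpperHalfPlane Filter Topology

noncomputable section

/-- the point `i y` of the upper half plane (junk for `y ≤ 0`) -/
def vert (y : ℝ) : ℍ := UpperHalfPlane.ofComplex (Complex.I * y)

theorem coe_vert {y : ℝ} (hy : 0 < y) : ((vert y : ℍ) : ℂ) = Complex.I * y := by
  unfold vert
  rw [UpperHalfPlane.ofComplex_apply_of_im_pos (by simpa using hy)]

theorem vert_re {y : ℝ} (hy : 0 < y) : (vert y).re = 0 := by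
  show ((vert y : ℍ) : ℂ).re = 0
  rw [coe_vert hy]; simp

theorem vert_im {y : ℝ} (hy : 0 < y) : (vert y).im = y := by
  show ((vert y : ℍ) : ℂ).im = y
  rw [coe_vert hy]; simp

theorem vert_mem_verticalStrip {y : ℝ} (hy : 1 ≤ y) : vert y ∈ verticalStrip 1 1 := by
  have hy0 : 0 < y := lt_of_lt_of_le one_pos hy
  refine ⟨?_, ?_⟩
  · rw [vert_re hy0]; simp
  · rw [vert_im hy0]; exact hy

/-- the strip bound along the imaginary axis -/
theorem norm_eisSummand_vert_le {k : ℤ} (hk : 0 ≤ k) (v : Fin 2 → ℤ) {y : ℝ} (hy : 1 ≤ y) :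
    ‖eisSummand k v (vert y)‖
      ≤ r ⟨⟨1, 1⟩, one_pos⟩ ^ (-(k : ℝ)) * ‖v‖ ^ (-(k : ℝ)) := by
  have hk' : (0 : ℝ) ≤ (k : ℝ) := by exact_mod_cast hk
  have h := summand_bound_of_mem_verticalStrip hk' v one_pos (vert_mem_verticalStrip hy)
  simp only [eisSummand, norm_zpow]
  calc ‖(v 0 : ℂ) * ((vert y : ℍ) : ℂ) + v 1‖ ^ (-k)
      = ‖(v 0 : ℂ) * ((vert y : ℍ) : ℂ) + v 1‖ ^ (-(k : ℝ)) := by
        rw [← Real.rpow_intCast]; push_cast; rfl
    _ ≤ _ := h

/-- terms with `v 0 = 0` are constant -/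
theorem eisSummand_of_zero (k : ℤ) {v : Fin 2 → ℤ} (hv : v 0 = 0) (z : ℍ) :
    eisSummand k v z = ((v 1 : ℤ) : ℂ) ^ (-k) := by
  simp [eisSummand, hv]

/-- terms with `v 0 ≠ 0` tend to zero along the imaginary axis -/
theorem tendsto_eisSummand_vert {k : ℤ} (hk : 1 ≤ k) {v : Fin 2 → ℤ} (hv : v 0 ≠ 0) :
    Tendsto (fun y : ℝ => eisSummand k v (vert y)) atTop (𝓝 0) := by
  rw [tendsto_zero_iff_norm_tendsto_zero]
  refine squeeze_zero' (Eventually.of_forall fun _ => norm_nonneg _) ?_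
    tendsto_inv_atTop_zero
  filter_upwards [eventually_ge_atTop (1 : ℝ)] with y hy
  have hy0 : 0 < y := lt_of_lt_of_le one_pos hy
  simp only [eisSummand, norm_zpow, coe_vert hy0]
  set w : ℂ := (v 0 : ℂ) * (Complex.I * y) + v 1 with hw
  have him : w.im = (v 0 : ℝ) * y := by simp [hw]
  have h1 : (1 : ℝ) ≤ |(v 0 : ℝ)| := by
    have : (1 : ℤ) ≤ |v 0| := Int.one_le_abs hv
    exact_mod_cast this
  have hwy : y ≤ ‖w‖ := by
    calc y ≤ |(v 0 : ℝ)| * y := by nlinarith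
      _ = |w.im| := by rw [him, abs_mul, abs_of_pos hy0]
      _ ≤ ‖w‖ := Complex.abs_im_le_norm w
  have hw1 : 1 ≤ ‖w‖ := hy.trans hwy
  have hw0 : 0 < ‖w‖ := lt_of_lt_of_le one_pos hw1
  lift k to ℕ using (by omega) with n
  have hn : 1 ≤ n := by exact_mod_cast hk
  rw [zpow_neg, zpow_natCast]
  apply inv_anti₀ hy0
  calc y ≤ ‖w‖ := hwy
    _ = ‖w‖ ^ 1 := (pow_one _).symm
    _ ≤ ‖w‖ ^ n := pow_le_pow_right₀ hw1 hn

/-- **Limit of the weighted Eisenstein sum along the imaginary axis.** -/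
theorem tendsto_wsum {eps : (Fin 2 → ℤ) → ℂ} (heps : ∀ v, ‖eps v‖ ≤ 1) {k : ℤ} (hk : 3 ≤ k) :
    Tendsto (fun y : ℝ => ∑' v : Fin 2 → ℤ, eps v * eisSummand k v (vert y)) atTop
      (𝓝 (∑' v : Fin 2 → ℤ, if v 0 = 0 then eps v * ((v 1 : ℤ) : ℂ) ^ (-k) else 0)) := by
  have hk' : (2 : ℝ) < (k : ℝ) := by exact_mod_cast (by omega : (2 : ℤ) < k)
  refine tendsto_tsum_of_dominated_convergence
    (bound := fun v => r ⟨⟨1, 1⟩, one_pos⟩ ^ (-(k : ℝ)) * ‖v‖ ^ (-(k : ℝ)))
    ((summable_one_div_norm_rpow hk').mul_left _) (fun v => ?_) ?_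
  · by_cases hv : v 0 = 0
    · simp only [hv, if_true, eisSummand_of_zero k hv]
      exact tendsto_const_nhds
    · simp only [hv, if_false]
      have := (tendsto_eisSummand_vert (by omega : (1 : ℤ) ≤ k) hv).const_mul (eps v)
      simpa using this
  · filter_upwards [eventually_ge_atTop (1 : ℝ)] with y hy v
    rw [norm_mul]
    calc ‖eps v‖ * ‖eisSummand k v (vert y)‖ ≤ 1 * ‖eisSummand k v (vert y)‖ :=
          mul_le_mul_of_nonneg_right (heps v) (norm_nonneg _)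
      _ = ‖eisSummand k v (vert y)‖ := one_mul _
      _ ≤ _ := norm_eisSummand_vert_le (by omega) v hy

/-- the limit for weights supported on coprime pairs -/
theorem limit_eq_of_coprime {eps : (Fin 2 → ℤ) → ℂ}
    (h : ∀ v : Fin 2 → ℤ, ¬ IsCoprime (v 0) (v 1) → eps v = 0) (k : ℤ) :
    (∑' v : Fin 2 → ℤ, if v 0 = 0 then eps v * ((v 1 : ℤ) : ℂ) ^ (-k) else 0)
      = eps ![0, 1] + (-1) ^ k * eps ![0, -1] := by
  have hne : (![0, 1] : Fin 2 → ℤ) ≠ ![0, -1] := by
    intro h'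
    have := congrFun h' 1
    simp at this
  rw [tsum_eq_sum (s := {![0, 1], ![0, -1]})]
  · rw [Finset.sum_pair hne]
    have h1 : ((-1 : ℂ) ^ k)⁻¹ = (-1) ^ k := by
      apply inv_eq_of_mul_eq_one_right
      rw [← mul_zpow]; simp
    simp [zpow_neg, h1, mul_comm]
  · intro v hv
    by_cases hv0 : v 0 = 0
    · simp only [hv0, if_true]
      have hnc : ¬ IsCoprime (v 0) (v 1) := by
        rw [hv0, isCoprime_zero_left, Int.isUnit_iff]
        rintro (h1 | h1)
        · apply hv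
          have : v = ![0, 1] := by
            ext i; fin_cases i <;> simp [hv0, h1]
          simp [this]
        · apply hv
          have : v = ![0, -1] := by
            ext i; fin_cases i <;> simp [hv0, h1]
          simp [this]
      rw [h v hnc, zero_mul]
    · simp [hv0]

/-- **Nonvanishing.** If the limit is nonzero, the weighted Eisenstein sum is not identically
zero. -/
theorem exists_ne_zero {eps : (Fin 2 → ℤ) → ℂ} (heps : ∀ v, ‖eps v‖ ≤ 1) {k : ℤ} (hk : 3 ≤ k)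
    (hL : (∑' v : Fin 2 → ℤ, if v 0 = 0 then eps v * ((v 1 : ℤ) : ℂ) ^ (-k) else 0) ≠ 0) :
    ∃ z : ℍ, (∑' v : Fin 2 → ℤ, eps v * eisSummand k v z) ≠ 0 := by
  have := (tendsto_wsum heps hk).eventually_ne hL
  obtain ⟨y, hy⟩ := this.exists
  exact ⟨vert y, hy⟩

/-- Packaged form for twisted Eisenstein series: weights of norm `≤ 1`, supported on coprime
pairs, equal to `1` at `(0, ±1)`, even weight `k ≥ 4`: the limit is `2` and the sum is not
identically zero. -/
theorem tendsto_two {eps : (Fin 2 → ℤ) → ℂ} (heps : ∀ v, ‖eps v‖ ≤ 1)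
    (h : ∀ v : Fin 2 → ℤ, ¬ IsCoprime (v 0) (v 1) → eps v = 0)
    (h1 : eps ![0, 1] = 1) (h2 : eps ![0, -1] = 1) {k : ℤ} (hk : 3 ≤ k) (hev : Even k) :
    Tendsto (fun y : ℝ => ∑' v : Fin 2 → ℤ, eps v * eisSummand k v (vert y)) atTop (𝓝 2) := by
  have := tendsto_wsum heps hk
  rw [limit_eq_of_coprime h k, h1, h2, hev.neg_one_zpow] at this
  norm_num at this
  exact this

theorem exists_ne_zero_of_even {eps : (Fin 2 → ℤ) → ℂ} (heps : ∀ v, ‖eps v‖ ≤ 1)
    (h : ∀ v : Fin 2 → ℤ, ¬ IsCoprime (v 0) (v 1) → eps v = 0)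
    (h1 : eps ![0, 1] = 1) (h2 : eps ![0, -1] = 1) {k : ℤ} (hk : 3 ≤ k) (hev : Even k) :
    ∃ z : ℍ, (∑' v : Fin 2 → ℤ, eps v * eisSummand k v z) ≠ 0 := by
  have := (tendsto_two heps h h1 h2 hk hev).eventually_ne (two_ne_zero)
  obtain ⟨y, hy⟩ := this.exists
  exact ⟨vert y, hy⟩

end

end Fermat.Agent.S29.Eis.Limit
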