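import Mathlib

/-!
# S29 (R3-E): weighted Eisenstein sums

For a weight function `ε : (Fin 2 → ℤ) → ℂ` of norm `≤ 1` and `3 ≤ k` the sum
`wEis ε k z = ∑' v, ε v * (v 0 * z + v 1) ^ (-k)` converges absolutely and locally uniformly, is
holomorphic on `ℍ`, bounded at `i∞`, and its slash by `A ∈ SL(2, ℤ)` is the weighted sum for the
translated weight function `v ↦ ε (v ᵥ* A⁻¹)` (so it is bounded at every cusp).
-/

set_option autoImplicit false

noncomputable section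

namespace Fermat.Agent.S29.Eis

open Complex UpperHalfPlane Set Filter Function Manifold EisensteinSeries ModularForm Matrix
open scoped MatrixGroups Topology

/-- the weighted Eisenstein sum. -/
def wEis (ε : (Fin 2 → ℤ) → ℂ) (k : ℤ) (z : ℍ) : ℂ :=
  ∑' v : Fin 2 → ℤ, ε v * eisSummand k v z

/-- weight functions of norm at most one. -/
def Bdd (ε : (Fin 2 → ℤ) → ℂ) : Prop := ∀ v, ‖ε v‖ ≤ 1

variable {ε : (Fin 2 → ℤ) → ℂ} {k : ℤ}

theorem norm_term_le (hε : Bdd ε) (v : Fin 2 → ℤ) (z : ℍ) :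
    ‖ε v * eisSummand k v z‖ ≤ ‖eisSummand k v z‖ := by
  rw [norm_mul]
  exact mul_le_of_le_one_left (norm_nonneg _) (hε v)

theorem summable_norm_term (hε : Bdd ε) (hk : 3 ≤ k) (z : ℍ) :
    Summable fun v : Fin 2 → ℤ => ‖ε v * eisSummand k v z‖ :=
  (summable_norm_eisSummand hk z).of_nonneg_of_le (fun _ => norm_nonneg _)
    (fun v => norm_term_le hε v z)

theorem summable_term (hε : Bdd ε) (hk : 3 ≤ k) (z : ℍ) :
    Summable fun v : Fin 2 → ℤ => ε v * eisSummand k v z :=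
  (summable_norm_term hε hk z).of_norm

theorem summable_wEis (hε : Bdd ε) (hk : 3 ≤ k) (z : ℍ) :
    Summable fun v : Fin 2 → ℤ => ε v * eisSummand k v z :=
  summable_term hε hk z

/-- the norm of a weighted sum is at most the full lattice majorant. -/
theorem norm_wEis_le (hε : Bdd ε) (hk : 3 ≤ k) (z : ℍ) :
    ‖wEis ε k z‖ ≤ ∑' v : Fin 2 → ℤ, ‖eisSummand k v z‖ := by
  refine le_trans (norm_tsum_le_tsum_norm (summable_norm_term hε hk z)) ?_
  exact (summable_norm_term hε hk z).tsum_le_tsum (fun v => norm_term_le hε v z)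
    (summable_norm_eisSummand hk z)

/-! ### right multiplication on the index set -/

theorem vecMul_vecMul_inv (A : SL(2, ℤ)) (v : Fin 2 → ℤ) :
    (v ᵥ* (A : Matrix (Fin 2) (Fin 2) ℤ)) ᵥ* ((A⁻¹ : SL(2, ℤ)) : Matrix (Fin 2) (Fin 2) ℤ) = v := by
  have h : (A : Matrix (Fin 2) (Fin 2) ℤ) * ((A⁻¹ : SL(2, ℤ)) : Matrix (Fin 2) (Fin 2) ℤ) = 1 :=
    congrArg Subtype.val (mul_inv_cancel A)
  rw [vecMul_vecMul, h, vecMul_one]

theorem vecMul_inv_vecMul (A : SL(2, ℤ)) (v : Fin 2 → ℤ) :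
    (v ᵥ* ((A⁻¹ : SL(2, ℤ)) : Matrix (Fin 2) (Fin 2) ℤ)) ᵥ* (A : Matrix (Fin 2) (Fin 2) ℤ) = v := by
  have h : ((A⁻¹ : SL(2, ℤ)) : Matrix (Fin 2) (Fin 2) ℤ) * (A : Matrix (Fin 2) (Fin 2) ℤ) = 1 :=
    congrArg Subtype.val (inv_mul_cancel A)
  rw [vecMul_vecMul, h, vecMul_one]

/-- right multiplication by `A ∈ SL(2, ℤ)` on `Fin 2 → ℤ`. -/
def vecMulEquiv (A : SL(2, ℤ)) : (Fin 2 → ℤ) ≃ (Fin 2 → ℤ) where
  toFun v := v ᵥ* (A : Matrix (Fin 2) (Fin 2) ℤ)
  invFun v := v ᵥ* ((A⁻¹ : SL(2, ℤ)) : Matrix (Fin 2) (Fin 2) ℤ)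
  left_inv v := vecMul_vecMul_inv A v
  right_inv v := vecMul_inv_vecMul A v

theorem vecMulEquiv_apply (A : SL(2, ℤ)) (v : Fin 2 → ℤ) :
    vecMulEquiv A v = v ᵥ* (A : Matrix (Fin 2) (Fin 2) ℤ) := rfl

/-- the weighted sum at `A • z`. -/
theorem wEis_smul (ε : (Fin 2 → ℤ) → ℂ) (k : ℤ) (A : SL(2, ℤ)) (z : ℍ) :
    wEis ε k (A • z) = denom A z ^ k * wEis (fun v => ε (v ᵥ* ↑(A⁻¹))) k z := by
  unfold wEis
  rw [← tsum_mul_left, ← (vecMulEquiv A).tsum_eq
    (fun w => denom A z ^ k * (ε (w ᵥ* ↑(A⁻¹)) * eisSummand k w z))]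
  refine tsum_congr fun v => ?_
  rw [eisSummand_SL2_apply, vecMulEquiv_apply, vecMul_vecMul_inv]
  ring

/-- **slash of a weighted sum.** -/
theorem wEis_slash (ε : (Fin 2 → ℤ) → ℂ) (k : ℤ) (A : SL(2, ℤ)) :
    wEis ε k ∣[k] A = wEis (fun v => ε (v ᵥ* ↑(A⁻¹))) k := by
  ext1 z
  rw [SL_slash_apply, wEis_smul, _root_.zpow_neg, mul_comm, ← mul_assoc,
    inv_mul_cancel₀ (zpow_ne_zero _ <| denom_ne_zero _ z), one_mul]

/-- translated weight functions stay bounded. -/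
theorem Bdd.translate (hε : Bdd ε) (A : SL(2, ℤ)) :
    Bdd (fun v => ε (v ᵥ* ↑(A⁻¹))) := fun _ => hε _

/-! ### holomorphy -/

/-- the partial sums converge locally uniformly on `ℍ`. -/
theorem wEis_tendstoLocallyUniformly (hε : Bdd ε) (hk : 3 ≤ k) :
    TendstoLocallyUniformly (fun (s : Finset (Fin 2 → ℤ)) ↦ (∑ x ∈ s, ε x * eisSummand k x ·))
      (wEis ε k ·) Filter.atTop := by
  have hk' : (2 : ℝ) < k := by norm_cast
  have p_sum : Summable fun x : Fin 2 → ℤ ↦ ‖x‖ ^ (-k) :=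
    mod_cast (summable_one_div_norm_rpow hk')
  simp only [tendstoLocallyUniformly_iff_forall_isCompact, wEis]
  intro K hK
  obtain ⟨A, B, hB, HABK⟩ := subset_verticalStrip_of_isCompact hK
  refine (tendstoUniformlyOn_tsum (hu := p_sum.mul_left <| r ⟨⟨A, B⟩, hB⟩ ^ (-k : ℝ))
    (fun p z hz ↦ ?_)).mono HABK
  refine le_trans (norm_term_le hε p z) ?_
  simpa only [eisSummand, one_div, ← _root_.zpow_neg, norm_zpow, ← Real.rpow_intCast,
    Int.cast_neg] using summand_bound_of_mem_verticalStrip (by positivity) p hB hz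

/-- variant with maps `ℂ → ℂ`. -/
theorem wEis_tendstoLocallyUniformlyOn (hε : Bdd ε) (hk : 3 ≤ k) :
    TendstoLocallyUniformlyOn (fun (s : Finset (Fin 2 → ℤ)) ↦
      ↑ₕ(fun (z : ℍ) ↦ ∑ x ∈ s, ε x * eisSummand k x z)) (↑ₕ(wEis ε k))
          Filter.atTop {z : ℂ | 0 < z.im} := by
  rw [← upperHalfPlaneSet, ← range_coe, ← image_univ]
  apply TendstoLocallyUniformlyOn.comp (s := ⊤) _ _ _ (OpenPartialHomeomorph.continuousOn_symm _)
  · simp only [Set.top_eq_univ, tendstoLocallyUniformlyOn_univ]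
    apply wEis_tendstoLocallyUniformly hε hk
  · simp only [Topology.IsOpenEmbedding.toOpenPartialHomeomorph_target, Set.top_eq_univ,
      mapsTo_range_iff, Set.mem_univ, forall_const]

theorem term_extension_differentiableOn (ε : (Fin 2 → ℤ) → ℂ) (k : ℤ) (a : Fin 2 → ℤ) :
    DifferentiableOn ℂ (↑ₕ(fun z : ℍ => ε a * eisSummand k a z)) {z : ℂ | 0 < z.im} := by
  have h := (eisSummand_extension_differentiableOn k a).const_mul (ε a)
  exact h

/-- **weighted Eisenstein sums are holomorphic.** -/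
theorem mdiff_wEis (hε : Bdd ε) (hk : 3 ≤ k) : MDiff (wEis ε k) := by
  intro τ
  suffices DifferentiableAt ℂ (↑ₕ(wEis ε k)) τ.1 by
    convert!
      MDifferentiableAt.comp τ (DifferentiableAt.mdifferentiableAt this) τ.mdifferentiable_coe
    exact funext fun z ↦ (comp_ofComplex (wEis ε k) z).symm
  refine DifferentiableOn.differentiableAt ?_ (isOpen_upperHalfPlaneSet.mem_nhds τ.2)
  exact (wEis_tendstoLocallyUniformlyOn hε hk).differentiableOn
    (Eventually.of_forall fun s ↦ DifferentiableOn.fun_sum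
    fun _ _ ↦ term_extension_differentiableOn _ _ _) isOpen_upperHalfPlaneSet

/-! ### boundedness at `i∞` -/

theorem denom_T_zpow (n : ℤ) (z : ℍ) : denom (ModularGroup.T ^ n : SL(2, ℤ)) z = 1 := by
  rw [ModularGroup.denom_apply, ModularGroup.coe_T_zpow]
  simp

/-- the full lattice majorant is invariant under `z ↦ z + n`. -/
theorem tsum_norm_eisSummand_T_zpow (k : ℤ) (n : ℤ) (z : ℍ) :
    ∑' v : Fin 2 → ℤ, ‖eisSummand k v ((ModularGroup.T ^ n : SL(2, ℤ)) • z)‖ =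
      ∑' v : Fin 2 → ℤ, ‖eisSummand k v z‖ := by
  rw [← (vecMulEquiv (ModularGroup.T ^ n)).tsum_eq (fun w => ‖eisSummand k w z‖)]
  refine tsum_congr fun v => ?_
  rw [eisSummand_SL2_apply, denom_T_zpow, _root_.one_zpow, one_mul, vecMulEquiv_apply]

/-- the full lattice majorant is bounded on `2 ≤ im z`. -/
theorem tsum_norm_eisSummand_le (hk : 3 ≤ k) (z : ℍ) (hz : 2 ≤ z.im) :
    ∑' v : Fin 2 → ℤ, ‖eisSummand k v z‖ ≤
      ∑' x : Fin 2 → ℤ, r ⟨⟨1, 2⟩, Nat.ofNat_pos⟩ ^ (-k) * ‖x‖ ^ (-k) := by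
  obtain ⟨n, hn⟩ := ModularGroup_T_zpow_mem_verticalStrip z (N := 1) one_pos
  simp only [Nat.cast_one, one_mul] at hn
  rw [← tsum_norm_eisSummand_T_zpow k n z]
  have hk' : (2 : ℝ) < k := by norm_cast
  apply (summable_norm_eisSummand hk _).tsum_le_tsum _
  · exact_mod_cast (summable_one_div_norm_rpow hk').mul_left <| r ⟨⟨1, 2⟩, Nat.ofNat_pos⟩ ^ (-k)
  · intro x
    simp_rw [eisSummand, norm_zpow]
    exact_mod_cast
      summand_bound_of_mem_verticalStrip (lt_trans two_pos hk').le x two_pos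
      (verticalStrip_anti_right 1 hz hn)

/-- **weighted Eisenstein sums are bounded at `i∞`** (for every bounded weight function). -/
theorem isBoundedAtImInfty_wEis (hε : Bdd ε) (hk : 3 ≤ k) :
    IsBoundedAtImInfty (wEis ε k) := by
  rw [UpperHalfPlane.isBoundedAtImInfty_iff]
  refine ⟨∑' x : Fin 2 → ℤ, r ⟨⟨1, 2⟩, Nat.ofNat_pos⟩ ^ (-k) * ‖x‖ ^ (-k), 2, ?_⟩
  intro z hz
  exact le_trans (norm_wEis_le hε hk z) (tsum_norm_eisSummand_le hk z hz)

/-- **every slash of a weighted Eisenstein sum is bounded at `i∞`.** -/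
theorem isBoundedAtImInfty_wEis_slash (hε : Bdd ε) (hk : 3 ≤ k) (A : SL(2, ℤ)) :
    IsBoundedAtImInfty (wEis ε k ∣[k] A) := by
  rw [wEis_slash]
  exact isBoundedAtImInfty_wEis (hε.translate A) hk

/-- every slash of a weighted Eisenstein sum is holomorphic. -/
theorem mdiff_wEis_slash (hε : Bdd ε) (hk : 3 ≤ k) (A : SL(2, ℤ)) :
    MDiff (wEis ε k ∣[k] A) := by
  rw [wEis_slash]
  exact mdiff_wEis (hε.translate A) hk

end Fermat.Agent.S29.Eis
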