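import Mathlib
import Fermat.Agent.S29.Eis.Weighted
import Fermat.Agent.S29.Eis.Chat
import Fermat.Agent.S29.Eis.Limit
import Fermat.Agent.S24.CuspOrd

/-!
# S29 (R3-E): the twisted Eisenstein series `E_c` on `Γ₀(N)`

For an admissible character `c : Γ₀(N) →* ℂˣ` (unitary, trivial on elements of trace `± 2`) and
`3 ≤ k` the series `Ec c k = ∑_v chat c v (v₀ z + v₁)^{-k}` is holomorphic on `ℍ`, satisfies
`Ec c k ∣[k] γ = c γ • Ec c k` for `γ ∈ Γ₀(N)`, every slash `Ec c k ∣[k] g` (`g ∈ SL(2, ℤ)`) is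
`N`-periodic and bounded at `i∞`, hence meromorphic at the cusp, and for even `k` it is not
identically zero.
-/

set_option autoImplicit false

noncomputable section

namespace Fermat.Agent.S29.Eis

open Complex UpperHalfPlane Set Filter Function Manifold EisensteinSeries ModularForm Matrix
  CongruenceSubgroup
open scoped MatrixGroups Topology

variable {N : ℕ}

/-- admissible characters: unitary, and trivial on the elements of trace `± 2`. -/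
def IsAdm (c : Gamma0 N →* ℂˣ) : Prop :=
  (∀ γ, ‖((c γ : ℂˣ) : ℂ)‖ = 1) ∧
    ∀ γ : Gamma0 N, ((γ : SL(2, ℤ)) : Matrix (Fin 2) (Fin 2) ℤ).trace ^ 2 = 4 → c γ = 1

theorem isAdm_one : IsAdm (1 : Gamma0 N →* ℂˣ) :=
  ⟨fun _ => by simp, fun _ _ => rfl⟩

variable {c : Gamma0 N →* ℂˣ}

theorem IsAdm.norm_eq (h : IsAdm c) (γ : Gamma0 N) : ‖((c γ : ℂˣ) : ℂ)‖ = 1 := h.1 γ

theorem IsAdm.killsPar (h : IsAdm c) : Chat.KillsPar c := by
  intro γ hγ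
  apply h.2
  have hdet := Matrix.SpecialLinearGroup.det_coe (γ : SL(2, ℤ))
  rw [Matrix.det_fin_two, hγ, mul_zero, sub_zero] at hdet
  rw [Matrix.trace_fin_two]
  rcases Int.isUnit_iff.mp (IsUnit.of_mul_eq_one _ hdet) with h0 | h0
  · rw [h0, one_mul] at hdet
    rw [h0, hdet]; norm_num
  · rw [h0] at hdet
    have h1 : (γ : SL(2, ℤ)) 1 1 = -1 := by linarith
    rw [h0, h1]; norm_num

theorem IsAdm.bdd (h : IsAdm c) : Bdd (Chat.chat c) := fun v => Chat.norm_chat_le h.1 v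

variable (c)

/-- **the twisted Eisenstein series.** -/
def Ec (k : ℤ) : ℍ → ℂ := wEis (Chat.chat c) k

variable {c}

theorem Ec_apply (k : ℤ) (z : ℍ) :
    Ec c k z = ∑' v : Fin 2 → ℤ, Chat.chat c v * eisSummand k v z := rfl

theorem Ec_eq_chat : Ec c = Chat.Ec c := rfl

theorem wEis_mul_const (ε : (Fin 2 → ℤ) → ℂ) (a : ℂ) (k : ℤ) :
    wEis (fun v => ε v * a) k = a • wEis ε k := by
  ext1 z
  simp only [wEis, Pi.smul_apply, smul_eq_mul]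
  rw [← tsum_mul_left]
  exact tsum_congr fun v => by ring

/-- **the multiplier of `E_c`.** -/
theorem Ec_slash (h : IsAdm c) (k : ℤ) (γ : Gamma0 N) :
    Ec c k ∣[k] (γ : SL(2, ℤ)) = ((c γ : ℂˣ) : ℂ) • Ec c k := by
  unfold Ec
  rw [wEis_slash, ← wEis_mul_const]
  congr 1
  funext v
  have h1 := Chat.chat_vecMul h.killsPar v γ⁻¹
  rw [map_inv, Units.val_inv_eq_inv_val, inv_inv] at h1
  exact h1

theorem Ec_slash_of_eq_one (h : IsAdm c) (k : ℤ) (γ : Gamma0 N) (hγ : c γ = 1) :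
    Ec c k ∣[k] (γ : SL(2, ℤ)) = Ec c k := by
  rw [Ec_slash h, hγ, Units.val_one, one_smul]

theorem Ec_one_slash (k : ℤ) (γ : Gamma0 N) :
    Ec (1 : Gamma0 N →* ℂˣ) k ∣[k] (γ : SL(2, ℤ)) = Ec (1 : Gamma0 N →* ℂˣ) k :=
  Ec_slash_of_eq_one isAdm_one k γ rfl

theorem mdiff_Ec (h : IsAdm c) {k : ℤ} (hk : 3 ≤ k) : MDiff (Ec c k) :=
  mdiff_wEis h.bdd hk

theorem mdiff_Ec_slash (h : IsAdm c) {k : ℤ} (hk : 3 ≤ k) (g : SL(2, ℤ)) :
    MDiff (Ec c k ∣[k] g) :=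
  mdiff_wEis_slash h.bdd hk g

theorem isBoundedAtImInfty_Ec_slash (h : IsAdm c) {k : ℤ} (hk : 3 ≤ k) (g : SL(2, ℤ)) :
    IsBoundedAtImInfty (Ec c k ∣[k] g) :=
  isBoundedAtImInfty_wEis_slash h.bdd hk g

/-! ### periodicity of the slashes -/

theorem Gamma_le_Gamma0' (N : ℕ) : CongruenceSubgroup.Gamma N ≤ Gamma0 N := fun _ hγ =>
  Gamma0_mem.mpr (Gamma_mem.mp hγ).2.2.1

theorem conj_T_pow_mem (N : ℕ) (g : SL(2, ℤ)) :
    g * ModularGroup.T ^ (N : ℤ) * g⁻¹ ∈ Gamma0 N := by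
  apply Gamma_le_Gamma0'
  apply (Gamma_normal (N := N)).conj_mem
  simpa using ModularGroup_T_pow_mem_Gamma (N : ℤ) (N : ℤ) dvd_rfl

theorem trace_conj_T_pow (n : ℤ) (g : SL(2, ℤ)) :
    ((g * ModularGroup.T ^ n * g⁻¹ : SL(2, ℤ)) : Matrix (Fin 2) (Fin 2) ℤ).trace = 2 := by
  have h1 : ((g * ModularGroup.T ^ n * g⁻¹ : SL(2, ℤ)) : Matrix (Fin 2) (Fin 2) ℤ) =
      (g : Matrix (Fin 2) (Fin 2) ℤ) * ((ModularGroup.T ^ n : SL(2, ℤ)) : Matrix (Fin 2) (Fin 2) ℤ)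
        * ((g⁻¹ : SL(2, ℤ)) : Matrix (Fin 2) (Fin 2) ℤ) := rfl
  have h2 : ((g⁻¹ : SL(2, ℤ)) : Matrix (Fin 2) (Fin 2) ℤ) * (g : Matrix (Fin 2) (Fin 2) ℤ) = 1 :=
    congrArg Subtype.val (inv_mul_cancel g)
  rw [h1, Matrix.trace_mul_cycle, h2, one_mul, ModularGroup.coe_T_zpow, Matrix.trace_fin_two]
  simp

/-- `c` is trivial on the conjugates of `T ^ N`. -/
theorem IsAdm.conj_T_pow (h : IsAdm c) (g : SL(2, ℤ)) :
    c ⟨g * ModularGroup.T ^ (N : ℤ) * g⁻¹, conj_T_pow_mem N g⟩ = 1 := by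
  apply h.2
  show ((g * ModularGroup.T ^ (N : ℤ) * g⁻¹ : SL(2, ℤ)) : Matrix (Fin 2) (Fin 2) ℤ).trace ^ 2 = 4
  rw [trace_conj_T_pow]; norm_num

theorem slash_T_zpow_apply (F : ℍ → ℂ) (k : ℤ) (n : ℤ) (z : ℍ) :
    (F ∣[k] (ModularGroup.T ^ n : SL(2, ℤ))) z = F ((n : ℝ) +ᵥ z) := by
  rw [SL_slash_apply, denom_T_zpow, _root_.one_zpow, mul_one, modular_T_zpow_smul]

/-- **every slash of `E_c` is `N`-periodic.** -/
theorem Ec_slash_periodic (h : IsAdm c) (k : ℤ) (g : SL(2, ℤ)) (z : ℍ) :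
    (Ec c k ∣[k] g) ((N : ℝ) +ᵥ z) = (Ec c k ∣[k] g) z := by
  have h1 : (Ec c k ∣[k] g) ∣[k] (ModularGroup.T ^ (N : ℤ) : SL(2, ℤ)) = Ec c k ∣[k] g := by
    have h2 : g * ModularGroup.T ^ (N : ℤ) = (g * ModularGroup.T ^ (N : ℤ) * g⁻¹) * g := by
      group
    rw [← SlashAction.slash_mul, h2, SlashAction.slash_mul]
    congr 1
    exact Ec_slash_of_eq_one h k ⟨_, conj_T_pow_mem N g⟩ (h.conj_T_pow g)
  have h3 := congrFun h1 z
  rw [slash_T_zpow_apply] at h3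
  simpa using h3

/-- **every slash of `E_c` is meromorphic (indeed holomorphic) at the cusp `i∞`.** -/
theorem isMeroCusp_Ec_slash [NeZero N] (h : IsAdm c) {k : ℤ} (hk : 3 ≤ k) (g : SL(2, ℤ)) :
    S24.IsMeroCusp (N : ℝ) (Ec c k ∣[k] g) :=
  S24.isMeroCusp_of_isBounded (by exact_mod_cast Nat.pos_of_ne_zero (NeZero.ne N))
    (mdiff_Ec_slash h hk g) (Ec_slash_periodic h k g) (isBoundedAtImInfty_Ec_slash h hk g)

theorem isMeroCusp_Ec [NeZero N] (h : IsAdm c) {k : ℤ} (hk : 3 ≤ k) :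
    S24.IsMeroCusp (N : ℝ) (Ec c k) := by
  have := isMeroCusp_Ec_slash h hk 1
  rwa [SlashAction.slash_one] at this

/-! ### nonvanishing -/

theorem chat_eq_zero_of_not_coprime (v : Fin 2 → ℤ) (hv : ¬ IsCoprime (v 0) (v 1)) :
    Chat.chat c v = 0 := by
  apply Chat.chat_of_not
  rintro ⟨γ, rfl⟩
  exact hv (Matrix.SpecialLinearGroup.isCoprime_row (γ : SL(2, ℤ)) 1)

/-- `E_c (i y) → 2` for even `k`. -/
theorem tendsto_Ec (h : IsAdm c) {k : ℤ} (hk : 3 ≤ k) (hev : Even k) :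
    Tendsto (fun y : ℝ => Ec c k (Limit.vert y)) atTop (𝓝 2) :=
  Limit.tendsto_two h.bdd chat_eq_zero_of_not_coprime (Chat.chat_zero_one h.killsPar)
    (Chat.chat_zero_neg_one h.killsPar) hk hev

/-- **`E_c ≠ 0` for even `k ≥ 4`.** -/
theorem Ec_ne_zero (h : IsAdm c) {k : ℤ} (hk : 3 ≤ k) (hev : Even k) : Ec c k ≠ 0 := by
  obtain ⟨z, hz⟩ := Limit.exists_ne_zero_of_even h.bdd chat_eq_zero_of_not_coprime
    (Chat.chat_zero_one h.killsPar) (Chat.chat_zero_neg_one h.killsPar) hk hev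
  intro h0
  exact hz (congrFun h0 z)

end Fermat.Agent.S29.Eis
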