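import Mathlib
import Fermat.Agent.S29.Eis.Twisted

/-!
# S29 (R3-E): the `ofAdd` spelling of admissible characters

For `ψ : Additive Γ₀(N) →+ ZMod p` the character `charOf ψ : Γ₀(N) →* ℂˣ`,
`γ ↦ ZMod.stdAddChar (ψ γ) = exp (2 π i ψ(γ) / p)`, is admissible as soon as `ψ` kills the
elements of trace `± 2`.
-/

set_option autoImplicit false

noncomputable section

namespace Fermat.Agent.S29.Eis

open Complex UpperHalfPlane Matrix CongruenceSubgroup ModularForm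
open scoped MatrixGroups

variable {N : ℕ} {p : ℕ} [NeZero p]

/-- `γ ↦ exp (2 π i ψ(γ) / p)` as a monoid hom to `ℂ`. -/
def charOfHom (ψ : Additive (Gamma0 N) →+ ZMod p) : Gamma0 N →* ℂ where
  toFun γ := ZMod.stdAddChar (ψ (Additive.ofMul γ))
  map_one' := by rw [ofMul_one, map_zero, AddChar.map_zero_eq_one]
  map_mul' a b := by rw [ofMul_mul, map_add, AddChar.map_add_eq_mul]

/-- **the character `γ ↦ exp (2 π i ψ(γ) / p)`** with values in `ℂˣ`. -/
def charOf (ψ : Additive (Gamma0 N) →+ ZMod p) : Gamma0 N →* ℂˣ :=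
  (charOfHom ψ).toHomUnits

theorem charOf_apply (ψ : Additive (Gamma0 N) →+ ZMod p) (γ : Gamma0 N) :
    ((charOf ψ γ : ℂˣ) : ℂ) = ZMod.stdAddChar (ψ (Additive.ofMul γ)) := rfl

theorem norm_charOf (ψ : Additive (Gamma0 N) →+ ZMod p) (γ : Gamma0 N) :
    ‖((charOf ψ γ : ℂˣ) : ℂ)‖ = 1 := by
  rw [charOf_apply, ZMod.stdAddChar_apply]
  exact Circle.norm_coe _

theorem charOf_eq_one_iff (ψ : Additive (Gamma0 N) →+ ZMod p) (γ : Gamma0 N) :
    charOf ψ γ = 1 ↔ ψ (Additive.ofMul γ) = 0 := by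
  rw [← Units.val_inj, charOf_apply, Units.val_one]
  constructor
  · intro h
    have := ZMod.injective_stdAddChar (N := p)
    apply this
    rw [h, AddChar.map_zero_eq_one]
  · intro h
    rw [h, AddChar.map_zero_eq_one]

theorem charOf_pow (ψ : Additive (Gamma0 N) →+ ZMod p) (γ : Gamma0 N) :
    ((charOf ψ γ : ℂˣ) : ℂ) ^ p = 1 := by
  rw [charOf_apply, ← AddChar.map_nsmul_eq_pow]
  simp

/-- **`charOf ψ` is admissible** when `ψ` kills the elements of trace `± 2`. -/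
theorem isAdm_charOf (ψ : Additive (Gamma0 N) →+ ZMod p)
    (hψ : ∀ γ : Gamma0 N, ((γ : SL(2, ℤ)) : Matrix (Fin 2) (Fin 2) ℤ).trace ^ 2 = 4 →
      ψ (Additive.ofMul γ) = 0) : IsAdm (charOf ψ) :=
  ⟨norm_charOf ψ, fun γ hγ => (charOf_eq_one_iff ψ γ).mpr (hψ γ hγ)⟩

theorem charOf_zero : charOf (0 : Additive (Gamma0 N) →+ ZMod p) = 1 := by
  ext γ
  rw [charOf_apply]
  simp

/-- the multiplier of `Ec (charOf ψ)` in the `stdAddChar` spelling. -/
theorem Ec_charOf_slash (ψ : Additive (Gamma0 N) →+ ZMod p)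
    (hψ : ∀ γ : Gamma0 N, ((γ : SL(2, ℤ)) : Matrix (Fin 2) (Fin 2) ℤ).trace ^ 2 = 4 →
      ψ (Additive.ofMul γ) = 0) (k : ℤ) (γ : Gamma0 N) :
    Ec (charOf ψ) k ∣[k] (γ : SL(2, ℤ)) =
      (ZMod.stdAddChar (ψ (Additive.ofMul γ)) : ℂ) • Ec (charOf ψ) k :=
  Ec_slash (isAdm_charOf ψ hψ) k γ

end Fermat.Agent.S29.Eis
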