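import Mathlib
import Fermat.Agent.S24.CuspMer

set_option autoImplicit false

/-!
# (R3-E4) ratios of two holomorphic functions of the same weight, inside `S24.Mer`

Generic layer for `F_c = E_c / E_1`: for `E E₁ : ℍ → ℂ` holomorphic, `ratio E E₁ : S24.Mer` is the
class of `E / E₁` (junk value `0` if one of them is not holomorphic).

* `compMer_ratio`: `compMer g (ratio E E₁) = ratio (E ∣[k] g) (E₁ ∣[k] g)` for every weight `k` and
  every `g : SL(2, ℤ)` (the automorphy factors cancel).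
* `compMer_ratio_of_slash`: if `E ∣[k] g = a • E` and `E₁ ∣[k] g = b • E₁` (`b ≠ 0`) then
  `compMer g (ratio E E₁) = algebraMap ℂ Mer (a / b) * ratio E E₁`.
* `compMer_ratio_mem_MerInf`: if `E ∣[k] g` and `E₁ ∣[k] g` are meromorphic at the cusp `i∞`
  (period `N`), then `compMer g (ratio E E₁) ∈ MerInf N`.
* `ratio_ne_zero`, `compMer_ratio_pow`.
-/

namespace Fermat.Agent.S29.Eis.Ratio

open UpperHalfPlane ModularForm
open scoped MatrixGroups Manifold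
open Fermat.Agent.S24 Fermat.Agent.S24.PsiLe

noncomputable section

/-- `z ↦ denom g z ^ k` as a holomorphic function on `ℍ`. -/
def denomPow (g : SL(2, ℤ)) (k : ℤ) : Hol :=
  Hol.mk (fun z : ℍ => denom (g : GL (Fin 2) ℝ) z ^ k) (mdifferentiable_denom_zpow _ k)

@[simp] theorem denomPow_apply (g : SL(2, ℤ)) (k : ℤ) (z : ℍ) :
    ((denomPow g k : Hol) : ℍ → ℂ) z = denom (g : GL (Fin 2) ℝ) z ^ k := rfl

theorem denomPow_ne_zero (g : SL(2, ℤ)) (k : ℤ) : denomPow g k ≠ 0 := by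
  intro h
  have := congrFun (congrArg Subtype.val h) UpperHalfPlane.I
  exact zpow_ne_zero k (denom_ne_zero _ _) this

theorem mdiff_slash_SL {E : ℍ → ℂ} (hE : MDiff E) (k : ℤ) (g : SL(2, ℤ)) : MDiff (E ∣[k] g) :=
  hE.slash k _

/-- `E ∘ g = (E ∣[k] g) · denom(g, ·)^k` in `Hol`. -/
theorem compHol_mk_eq_slash_mul {E : ℍ → ℂ} (hE : MDiff E) (k : ℤ) (g : SL(2, ℤ)) :
    compHol g (Hol.mk E hE) = Hol.mk (E ∣[k] g) (mdiff_slash_SL hE k g) * denomPow g k := by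
  refine Hol.ext fun z => ?_
  rw [compHol_apply, Hol.coe_mul]
  simp only [Hol.coe_mk, Pi.mul_apply, denomPow_apply]
  rw [SL_slash_apply, mul_assoc, ← zpow_add₀ (denom_ne_zero _ _), neg_add_cancel, zpow_zero,
    mul_one]

/-- the class of `E / E₁` in `Mer` (junk value `0` unless both are holomorphic). -/
def ratio (E E₁ : ℍ → ℂ) : Mer := by
  classical
  exact if h : MDiff E ∧ MDiff E₁ then toMer (Hol.mk E h.1) / toMer (Hol.mk E₁ h.2) else 0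

theorem ratio_eq {E E₁ : ℍ → ℂ} (hE : MDiff E) (hE₁ : MDiff E₁) :
    ratio E E₁ = toMer (Hol.mk E hE) / toMer (Hol.mk E₁ hE₁) := by
  unfold ratio
  rw [dif_pos ⟨hE, hE₁⟩]

theorem mk_ne_zero {E : ℍ → ℂ} (hE : MDiff E) (h0 : E ≠ 0) : Hol.mk E hE ≠ 0 := by
  intro h
  exact h0 (congrArg Subtype.val h)

theorem ratio_ne_zero {E E₁ : ℍ → ℂ} (hE : MDiff E) (hE₁ : MDiff E₁) (h0 : E ≠ 0) (h1 : E₁ ≠ 0) :
    ratio E E₁ ≠ 0 := by
  rw [ratio_eq hE hE₁]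
  exact div_ne_zero (toMer_ne_zero (mk_ne_zero hE h0)) (toMer_ne_zero (mk_ne_zero hE₁ h1))

theorem ratio_mul_toMer {E E₁ : ℍ → ℂ} (hE : MDiff E) (hE₁ : MDiff E₁) (h1 : E₁ ≠ 0) :
    ratio E E₁ * toMer (Hol.mk E₁ hE₁) = toMer (Hol.mk E hE) := by
  rw [ratio_eq hE hE₁]
  exact div_mul_cancel₀ _ (toMer_ne_zero (mk_ne_zero hE₁ h1))

/-- **the automorphy factors cancel**: `(E / E₁) ∘ g = (E ∣[k] g) / (E₁ ∣[k] g)`. -/
theorem compMer_ratio {E E₁ : ℍ → ℂ} (hE : MDiff E) (hE₁ : MDiff E₁) (k : ℤ) (g : SL(2, ℤ)) :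
    compMer g (ratio E E₁) = ratio (E ∣[k] g) (E₁ ∣[k] g) := by
  rw [ratio_eq hE hE₁, ratio_eq (mdiff_slash_SL hE k g) (mdiff_slash_SL hE₁ k g), map_div₀,
    compMer_toMer, compMer_toMer, compHol_mk_eq_slash_mul hE k g, compHol_mk_eq_slash_mul hE₁ k g,
    map_mul, map_mul]
  exact mul_div_mul_right _ _ (toMer_ne_zero (denomPow_ne_zero g k))

/-- membership in `MerInf N` of a translate of the ratio. -/
theorem compMer_ratio_mem_MerInf (N : ℕ) [NeZero N] {E E₁ : ℍ → ℂ} (hE : MDiff E)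
    (hE₁ : MDiff E₁) (k : ℤ) (g : SL(2, ℤ)) (h : IsMeroCusp (N : ℝ) (E ∣[k] g))
    (h₁ : IsMeroCusp (N : ℝ) (E₁ ∣[k] g)) : compMer g (ratio E E₁) ∈ MerInf N := by
  rw [compMer_ratio hE hE₁ k g, ratio_eq (mdiff_slash_SL hE k g) (mdiff_slash_SL hE₁ k g)]
  exact div_mem_MerInf N h h₁

theorem ratio_mem_MerInf (N : ℕ) [NeZero N] {E E₁ : ℍ → ℂ} (h : IsMeroCusp (N : ℝ) E)
    (h₁ : IsMeroCusp (N : ℝ) E₁) : ratio E E₁ ∈ MerInf N := by
  rw [ratio_eq h.mdiff h₁.mdiff]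
  exact div_mem_MerInf N h h₁

theorem mk_smul {E : ℍ → ℂ} (hE : MDiff E) (a : ℂ) (h : MDiff (a • E)) :
    Hol.mk (a • E) h = algebraMap ℂ Hol a * Hol.mk E hE := by
  refine Hol.ext fun z => ?_
  rw [Hol.coe_mul]
  simp

theorem ratio_smul_smul {E E₁ : ℍ → ℂ} (hE : MDiff E) (hE₁ : MDiff E₁) (a b : ℂ) (hb : b ≠ 0)
    (h1 : E₁ ≠ 0) :
    ratio (a • E) (b • E₁) = algebraMap ℂ Mer (a / b) * ratio E E₁ := by
  have ha' : MDiff (a • E) := hE.const_smul a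
  have hb' : MDiff (b • E₁) := hE₁.const_smul b
  rw [ratio_eq ha' hb', ratio_eq hE hE₁, mk_smul hE a ha', mk_smul hE₁ b hb', map_mul, map_mul,
    map_div₀, IsScalarTower.algebraMap_apply ℂ Hol Mer a, IsScalarTower.algebraMap_apply ℂ Hol Mer b]
  have hb0 : toMer (algebraMap ℂ Hol b) ≠ 0 := toMer_ne_zero (Hol.algebraMap_ne_zero hb)
  have h10 : toMer (Hol.mk E₁ hE₁) ≠ 0 := toMer_ne_zero (mk_ne_zero hE₁ h1)
  field_simp

/-- **multiplier**: if `E ∣[k] g = a • E` and `E₁ ∣[k] g = b • E₁` then `E / E₁` is multiplied by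
`a / b` under `g`. -/
theorem compMer_ratio_of_slash {E E₁ : ℍ → ℂ} (hE : MDiff E) (hE₁ : MDiff E₁) (h1 : E₁ ≠ 0)
    (k : ℤ) (g : SL(2, ℤ)) (a b : ℂ) (hb : b ≠ 0) (ha : E ∣[k] g = a • E)
    (hb' : E₁ ∣[k] g = b • E₁) :
    compMer g (ratio E E₁) = algebraMap ℂ Mer (a / b) * ratio E E₁ := by
  rw [compMer_ratio hE hE₁ k g, ha, hb', ratio_smul_smul hE hE₁ a b hb h1]

theorem compMer_ratio_of_slash_one {E E₁ : ℍ → ℂ} (hE : MDiff E) (hE₁ : MDiff E₁) (h1 : E₁ ≠ 0)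
    (k : ℤ) (g : SL(2, ℤ)) (a : ℂ) (ha : E ∣[k] g = a • E) (hb' : E₁ ∣[k] g = E₁) :
    compMer g (ratio E E₁) = algebraMap ℂ Mer a * ratio E E₁ := by
  have := compMer_ratio_of_slash hE hE₁ h1 k g a 1 one_ne_zero ha (by rw [hb', one_smul])
  rwa [div_one] at this

/-- the `p`-th power of the ratio is invariant when the multiplier is a `p`-th root of unity. -/
theorem compMer_ratio_pow {E E₁ : ℍ → ℂ} (hE : MDiff E) (hE₁ : MDiff E₁) (h1 : E₁ ≠ 0)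
    (k : ℤ) (g : SL(2, ℤ)) (a : ℂ) (ha : E ∣[k] g = a • E) (hb' : E₁ ∣[k] g = E₁) (p : ℕ)
    (hp : a ^ p = 1) : compMer g (ratio E E₁ ^ p) = ratio E E₁ ^ p := by
  rw [map_pow, compMer_ratio_of_slash_one hE hE₁ h1 k g a ha hb', mul_pow, ← map_pow, hp, map_one,
    one_mul]

end

end Fermat.Agent.S29.Eis.Ratio
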