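import Mathlib
import Fermat.Agent.S24.BridgeInv
import Fermat.Agent.S29.Eis.Twisted
import Fermat.Agent.S29.Eis.Adapter
import Fermat.Agent.S29.Eis.Ratio

set_option autoImplicit false

/-!
# (R3-E4) the functions `F_c = E_c / E_1` in `S24.Mer`

`c : Γ₀(N) →* ℂˣ` an admissible character (`IsAdm c` of `Eis/Twisted.lean`: unitary, and trivial on
every element of trace `±2`), `E_c := Ec c 4` the twisted Eisenstein series of weight `4`.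

* `Fc c : S24.Mer` (`= E_c / E_1`), `Fc_ne_zero`, `Fc_one`;
* `compMer_Fc : compMer γ (Fc c) = algebraMap ℂ Mer (c γ) * Fc c` for `γ ∈ Γ₀(N)`;
* `compMer_Fc_mem_MerInf : compMer g (Fc c) ∈ MerInf N` for every `g : SL(2, ℤ)`;
* `compMer_Fc_pow : compMer γ (Fc c ^ p) = Fc c ^ p` if `c ^ p = 1`; `compMer_Fc_pow_mem_MerInf`;
* `compMer_compMer_Fc` : the translate `F_c ∘ g` has the conjugated multiplier;
  `compMer_T_zpow_compMer_Fc` : `F_c ∘ g` is invariant under `T ^ w` as soon as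
  `g T^w g⁻¹ ∈ Γ₀(N)` (cusp widths);
* `exists_mer_multiplier` : the packaged existence statement;
* the additive spelling `FcAdd ψ := Fc (charOf ψ)` for `ψ : Additive Γ₀(N) →+ ZMod p`:
  `FcAdd_ne_zero`, `compMer_FcAdd`, `compMer_FcAdd_mem_MerInf`, `compMer_FcAdd_pow`.
-/

namespace Fermat.Agent.S29.Eis

open UpperHalfPlane CongruenceSubgroup ModularForm
open scoped MatrixGroups Manifold
open Fermat.Agent.S24 Fermat.Agent.S24.PsiLe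

noncomputable section

variable {N : ℕ} {c : Gamma0 N →* ℂˣ}

/-! ### closure properties of admissibility -/

theorem isAdm_pow (hc : IsAdm c) (n : ℕ) : IsAdm (c ^ n) := by
  refine ⟨fun γ => ?_, fun γ h => ?_⟩
  · rw [MonoidHom.pow_apply, Units.val_pow_eq_pow_val, norm_pow, hc.1, one_pow]
  · rw [MonoidHom.pow_apply, hc.2 γ h, one_pow]

theorem isAdm_mul {c' : Gamma0 N →* ℂˣ} (hc : IsAdm c) (hc' : IsAdm c') : IsAdm (c * c') := by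
  refine ⟨fun γ => ?_, fun γ h => ?_⟩
  · rw [MonoidHom.mul_apply, Units.val_mul, norm_mul, hc.1, hc'.1, one_mul]
  · rw [MonoidHom.mul_apply, hc.2 γ h, hc'.2 γ h, one_mul]

theorem isAdm_inv (hc : IsAdm c) : IsAdm c⁻¹ := by
  refine ⟨fun γ => ?_, fun γ h => ?_⟩
  · rw [MonoidHom.inv_apply, Units.val_inv_eq_inv_val, norm_inv, hc.1, inv_one]
  · rw [MonoidHom.inv_apply, hc.2 γ h, inv_one]

/-- for `γ := g T^w g⁻¹ ∈ Γ₀(N)`: `c γ = 1`. -/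
theorem IsAdm.conj_T_zpow (hc : IsAdm c) (g : SL(2, ℤ)) (w : ℤ)
    (h : g * ModularGroup.T ^ w * g⁻¹ ∈ Gamma0 N) : c ⟨_, h⟩ = 1 := by
  apply hc.2
  show ((g * ModularGroup.T ^ w * g⁻¹ : SL(2, ℤ)) : Matrix (Fin 2) (Fin 2) ℤ).trace ^ 2 = 4
  rw [trace_conj_T_pow]; norm_num

/-- `g T^w g⁻¹ ∈ Γ₀(N)` when `N ∣ w`. -/
theorem conj_T_zpow_mem_Gamma0 (g : SL(2, ℤ)) {w : ℤ} (hw : (N : ℤ) ∣ w) :
    g * ModularGroup.T ^ w * g⁻¹ ∈ Gamma0 N := by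
  apply Gamma_le_Gamma0'
  apply (Gamma_normal (N := N)).conj_mem
  exact ModularGroup_T_pow_mem_Gamma (N : ℤ) w hw

/-! ### the weight four series -/

theorem mdiff_E4 (hc : IsAdm c) : MDiff (Ec c 4) := mdiff_Ec hc (by norm_num)

theorem E4_ne_zero (hc : IsAdm c) : Ec c 4 ≠ 0 := Ec_ne_zero hc (by norm_num) ⟨2, by norm_num⟩

/-! ### the ratio `F_c` -/

/-- **`F_c = E_c / E_1`** (weight `4`), an element of `S24.Mer`. -/
def Fc (c : Gamma0 N →* ℂˣ) : Mer :=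
  Ratio.ratio (Ec c 4) (Ec (1 : Gamma0 N →* ℂˣ) 4)

theorem Fc_eq (hc : IsAdm c) :
    Fc c = toMer (Hol.mk (Ec c 4) (mdiff_E4 hc)) /
      toMer (Hol.mk (Ec (1 : Gamma0 N →* ℂˣ) 4) (mdiff_E4 isAdm_one)) :=
  Ratio.ratio_eq _ _

theorem Fc_ne_zero (hc : IsAdm c) : Fc c ≠ 0 :=
  Ratio.ratio_ne_zero (mdiff_E4 hc) (mdiff_E4 isAdm_one) (E4_ne_zero hc) (E4_ne_zero isAdm_one)

theorem Fc_one : Fc (1 : Gamma0 N →* ℂˣ) = 1 := by
  rw [Fc_eq isAdm_one]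
  exact div_self (toMer_ne_zero (Ratio.mk_ne_zero _ (E4_ne_zero isAdm_one)))

/-- **the multiplier of `F_c` is `c`.** -/
theorem compMer_Fc (hc : IsAdm c) (γ : Gamma0 N) :
    compMer (γ : SL(2, ℤ)) (Fc c) = algebraMap ℂ Mer ((c γ : ℂˣ) : ℂ) * Fc c :=
  Ratio.compMer_ratio_of_slash_one (mdiff_E4 hc) (mdiff_E4 isAdm_one) (E4_ne_zero isAdm_one) 4
    (γ : SL(2, ℤ)) _ (Ec_slash hc 4 γ) (Ec_one_slash 4 γ)

/-- variant with a membership hypothesis. -/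
theorem compMer_Fc' (hc : IsAdm c) (γ : SL(2, ℤ)) (hγ : γ ∈ Gamma0 N) :
    compMer γ (Fc c) = algebraMap ℂ Mer ((c ⟨γ, hγ⟩ : ℂˣ) : ℂ) * Fc c :=
  compMer_Fc hc ⟨γ, hγ⟩

/-- `F_c` is invariant under the elements of `Γ₀(N)` killed by `c`. -/
theorem compMer_Fc_of_eq_one (hc : IsAdm c) (γ : Gamma0 N) (hγ : c γ = 1) :
    compMer (γ : SL(2, ℤ)) (Fc c) = Fc c := by
  rw [compMer_Fc hc, hγ]
  simp

/-- **every `SL(2, ℤ)`-translate of `F_c` is meromorphic at `i∞`** (period `N`). -/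
theorem compMer_Fc_mem_MerInf [NeZero N] (hc : IsAdm c) (g : SL(2, ℤ)) :
    compMer g (Fc c) ∈ MerInf N :=
  Ratio.compMer_ratio_mem_MerInf N (mdiff_E4 hc) (mdiff_E4 isAdm_one) 4 g
    (isMeroCusp_Ec_slash hc (by norm_num) g) (isMeroCusp_Ec_slash isAdm_one (by norm_num) g)

theorem Fc_mem_MerInf [NeZero N] (hc : IsAdm c) : Fc c ∈ MerInf N := by
  have := compMer_Fc_mem_MerInf hc 1
  rwa [BridgeInv.compMer_one] at this

/-- the `p`-th power of `F_c` is `Γ₀(N)`-invariant when `c ^ p = 1`. -/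
theorem compMer_Fc_pow (hc : IsAdm c) {p : ℕ} (hp : c ^ p = 1) (γ : Gamma0 N) :
    compMer (γ : SL(2, ℤ)) (Fc c ^ p) = Fc c ^ p := by
  refine Ratio.compMer_ratio_pow (mdiff_E4 hc) (mdiff_E4 isAdm_one) (E4_ne_zero isAdm_one) 4
    (γ : SL(2, ℤ)) _ (Ec_slash hc 4 γ) (Ec_one_slash 4 γ) p ?_
  have := congrArg (fun f : Gamma0 N →* ℂˣ => ((f γ : ℂˣ) : ℂ)) hp
  simpa using this

/-- pointwise variant: only `c γ ^ p = 1` is needed. -/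
theorem compMer_Fc_pow_of_pow_eq_one (hc : IsAdm c) {p : ℕ} (γ : Gamma0 N)
    (hp : ((c γ : ℂˣ) : ℂ) ^ p = 1) : compMer (γ : SL(2, ℤ)) (Fc c ^ p) = Fc c ^ p :=
  Ratio.compMer_ratio_pow (mdiff_E4 hc) (mdiff_E4 isAdm_one) (E4_ne_zero isAdm_one) 4
    (γ : SL(2, ℤ)) _ (Ec_slash hc 4 γ) (Ec_one_slash 4 γ) p hp

theorem compMer_Fc_pow_mem_MerInf [NeZero N] (hc : IsAdm c) (p : ℕ) (g : SL(2, ℤ)) :
    compMer g (Fc c ^ p) ∈ MerInf N := by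
  rw [map_pow]
  exact pow_mem (compMer_Fc_mem_MerInf hc g) p

/-- the conjugated multiplier: for `δ` with `g δ g⁻¹ ∈ Γ₀(N)`, the translate `F_c ∘ g` is
multiplied by `c (g δ g⁻¹)` under `δ`. -/
theorem compMer_compMer_Fc (hc : IsAdm c) (g δ : SL(2, ℤ)) (h : g * δ * g⁻¹ ∈ Gamma0 N) :
    compMer δ (compMer g (Fc c)) =
      algebraMap ℂ Mer ((c ⟨_, h⟩ : ℂˣ) : ℂ) * compMer g (Fc c) := by
  have h2 : g * δ = (g * δ * g⁻¹) * g := by group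
  have h3 : compMer (g * δ) (Fc c) = compMer ((g * δ * g⁻¹) * g) (Fc c) :=
    congrArg (fun x => compMer x (Fc c)) h2
  rw [← BridgeInv.compMer_mul, h3, BridgeInv.compMer_mul, compMer_Fc' hc _ h, map_mul]
  congr 1
  rw [IsScalarTower.algebraMap_apply ℂ Hol Mer, compMer_algebraMap]
  congr 1

/-- **cusp widths**: `F_c ∘ g` is invariant under `T ^ w` as soon as `g T^w g⁻¹ ∈ Γ₀(N)`. -/
theorem compMer_T_zpow_compMer_Fc (hc : IsAdm c) (g : SL(2, ℤ)) (w : ℤ)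
    (h : g * ModularGroup.T ^ w * g⁻¹ ∈ Gamma0 N) :
    compMer (ModularGroup.T ^ w) (compMer g (Fc c)) = compMer g (Fc c) := by
  rw [compMer_compMer_Fc hc g _ h, hc.conj_T_zpow g w h]
  simp

/-- **packaged form**: for every admissible character `c` of `Γ₀(N)` there is a nonzero
meromorphic function on `ℍ` with multiplier `c`, all of whose `SL(2, ℤ)`-translates are
meromorphic at `i∞`. -/
theorem exists_mer_multiplier [NeZero N] (hc : IsAdm c) :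
    ∃ y : Mer, y ≠ 0 ∧
      (∀ γ : Gamma0 N, compMer (γ : SL(2, ℤ)) y = algebraMap ℂ Mer ((c γ : ℂˣ) : ℂ) * y) ∧
      ∀ g : SL(2, ℤ), compMer g y ∈ MerInf N :=
  ⟨Fc c, Fc_ne_zero hc, compMer_Fc hc, compMer_Fc_mem_MerInf hc⟩

/-! ### the additive spelling -/

section Additive

variable {p : ℕ} [NeZero p]

/-- `F_ψ := F_{charOf ψ}` for `ψ : Γ₀(N) → ℤ/p`. -/
def FcAdd (ψ : Additive (Gamma0 N) →+ ZMod p) : Mer := Fc (charOf ψ)

variable (ψ : Additive (Gamma0 N) →+ ZMod p)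
  (hψ : ∀ γ : Gamma0 N, ((γ : SL(2, ℤ)) : Matrix (Fin 2) (Fin 2) ℤ).trace ^ 2 = 4 →
    ψ (Additive.ofMul γ) = 0)

include hψ

theorem FcAdd_ne_zero : FcAdd ψ ≠ 0 := Fc_ne_zero (isAdm_charOf ψ hψ)

/-- the multiplier of `F_ψ` is `γ ↦ exp (2 π i ψ(γ) / p)`. -/
theorem compMer_FcAdd (γ : Gamma0 N) :
    compMer (γ : SL(2, ℤ)) (FcAdd ψ) =
      algebraMap ℂ Mer (ZMod.stdAddChar (ψ (Additive.ofMul γ)) : ℂ) * FcAdd ψ :=
  compMer_Fc (isAdm_charOf ψ hψ) γ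

theorem compMer_FcAdd_mem_MerInf [NeZero N] (g : SL(2, ℤ)) : compMer g (FcAdd ψ) ∈ MerInf N :=
  compMer_Fc_mem_MerInf (isAdm_charOf ψ hψ) g

/-- `F_ψ ^ p` is `Γ₀(N)`-invariant. -/
theorem compMer_FcAdd_pow (γ : Gamma0 N) :
    compMer (γ : SL(2, ℤ)) (FcAdd ψ ^ p) = FcAdd ψ ^ p :=
  compMer_Fc_pow_of_pow_eq_one (isAdm_charOf ψ hψ) γ (charOf_pow ψ γ)

theorem compMer_FcAdd_pow_mem_MerInf [NeZero N] (g : SL(2, ℤ)) :
    compMer g (FcAdd ψ ^ p) ∈ MerInf N :=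
  compMer_Fc_pow_mem_MerInf (isAdm_charOf ψ hψ) p g

/-- **the `[E+]` contract**: `F_ψ ≠ 0` with multiplier `stdAddChar ∘ ψ`, every translate
meromorphic at `i∞`, and `F_ψ ^ p` invariant under `Γ₀(N)`. -/
theorem FcAdd_spec [NeZero N] :
    FcAdd ψ ≠ 0 ∧
      (∀ γ : Gamma0 N, compMer (γ : SL(2, ℤ)) (FcAdd ψ) =
        algebraMap ℂ Mer (ZMod.stdAddChar (ψ (Additive.ofMul γ)) : ℂ) * FcAdd ψ) ∧
      (∀ g : SL(2, ℤ), compMer g (FcAdd ψ) ∈ MerInf N) ∧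
      (∀ γ : Gamma0 N, compMer (γ : SL(2, ℤ)) (FcAdd ψ ^ p) = FcAdd ψ ^ p) ∧
      ∀ g : SL(2, ℤ), compMer g (FcAdd ψ ^ p) ∈ MerInf N :=
  ⟨FcAdd_ne_zero ψ hψ, compMer_FcAdd ψ hψ, compMer_FcAdd_mem_MerInf ψ hψ,
    compMer_FcAdd_pow ψ hψ, compMer_FcAdd_pow_mem_MerInf ψ hψ⟩

end Additive

end

end Fermat.Agent.S29.Eis
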